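import Mathlib

/-!
# S58 / E0DIV: valuation lemmas, the small root of a cubic, the singular point of a nodal cubic
(helper23)
-/

set_option autoImplicit false

open WeierstrassCurve Polynomial

namespace Fermat.Agent.H23.S58

section SmallRoot

variable {K : Type*} [Field K]

/-- A cubic `4x³ + b x² + 4 c x + 4 d` over an algebraically closed field with `d` a non-unit
of the valuation ring `A` has a root in `A.nonunits` (the product of the roots is `-d`). -/
theorem s58_exists_small_root [IsAlgClosed K] (A : ValuationSubring K) (h4 : (4 : K) ≠ 0)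
    (b c d : K) (hd : d ∈ A.nonunits) :
    ∃ x ∈ A.nonunits, 4 * x ^ 3 + b * x ^ 2 + 4 * c * x + 4 * d = 0 := by
  classical
  set P : Cubic K := ⟨4, b, 4 * c, 4 * d⟩ with hP
  have ha : P.a ≠ 0 := h4
  have hsp : Splits (P.toPoly.map (RingHom.id K)) := IsAlgClosed.splits _
  obtain ⟨x, y, z, h3⟩ := (Cubic.splits_iff_roots_eq_three (φ := RingHom.id K) ha).mp hsp
  have hdd := Cubic.d_eq_three_roots (φ := RingHom.id K) ha h3
  have hd' : d = -(x * y * z) := by
    have : (4 : K) * d = 4 * -(x * y * z) := by simpa [hP] using hdd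
    exact mul_left_cancel₀ h4 this
  have h0 : (Cubic.map (RingHom.id K) P).toPoly ≠ 0 := by
    apply Cubic.ne_zero_of_a_ne_zero
    simpa [Cubic.map] using ha
  have hroot : ∀ w ∈ ({x, y, z} : Multiset K), 4 * w ^ 3 + b * w ^ 2 + 4 * c * w + 4 * d = 0 := by
    intro w hw
    rw [← h3] at hw
    have := (Cubic.mem_roots_iff h0 w).mp hw
    simpa [Cubic.map, hP] using this
  have hv : A.valuation x * A.valuation y * A.valuation z < 1 := by
    have := A.mem_nonunits_iff.mp hd
    rwa [hd', Valuation.map_neg, map_mul, map_mul] at this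
  by_cases hx : A.valuation x < 1
  · exact ⟨x, A.mem_nonunits_iff.mpr hx, hroot x (by simp)⟩
  by_cases hy : A.valuation y < 1
  · exact ⟨y, A.mem_nonunits_iff.mpr hy, hroot y (by simp)⟩
  by_cases hz : A.valuation z < 1
  · exact ⟨z, A.mem_nonunits_iff.mpr hz, hroot z (by simp)⟩
  exfalso
  rw [not_lt] at hx hy hz
  have h1 : (1 : A.ValueGroup) ≤ A.valuation x * A.valuation y := one_le_mul_of_one_le_of_one_le hx hy
  have h2 : (1 : A.ValueGroup) ≤ A.valuation x * A.valuation y * A.valuation z :=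
    one_le_mul_of_one_le_of_one_le h1 hz
  exact absurd hv (not_lt.mpr h2)

end SmallRoot

section Identities

variable {R : Type*} [CommRing R] (W : WeierstrassCurve R)

/-- Numerator of the `x`-coordinate of the singular point of a nodal cubic. -/
def s58nX : R := 18 * W.b₆ - W.b₂ * W.b₄

/-- Numerator of the `y`-coordinate of the singular point of a nodal cubic. -/
def s58nY : R :=
  W.b₂ * (W.a₁ * W.a₄ - 2 * W.a₂ * W.a₃) + 3 * (W.a₁ * (W.a₃ ^ 2 - 12 * W.a₆) + 8 * W.a₃ * W.a₄)

theorem s58_sing_polyY : 2 * s58nY W + W.a₁ * s58nX W + W.a₃ * W.c₄ = 0 := by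
  simp only [s58nX, s58nY, WeierstrassCurve.c₄, WeierstrassCurve.b₂, WeierstrassCurve.b₄,
    WeierstrassCurve.b₆]
  ring

theorem s58_sing_polyX :
    W.a₁ * s58nY W * W.c₄ - 3 * s58nX W ^ 2 - 2 * W.a₂ * s58nX W * W.c₄ - W.a₄ * W.c₄ ^ 2
      = 36 * W.Δ := by
  simp only [s58nX, s58nY, WeierstrassCurve.Δ, WeierstrassCurve.c₄, WeierstrassCurve.b₂,
    WeierstrassCurve.b₄, WeierstrassCurve.b₆, WeierstrassCurve.b₈]
  ring

theorem s58_sing_eqn :
    s58nY W ^ 2 * W.c₄ + W.a₁ * s58nX W * s58nY W * W.c₄ + W.a₃ * s58nY W * W.c₄ ^ 2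
      - s58nX W ^ 3 - W.a₂ * s58nX W ^ 2 * W.c₄ - W.a₄ * s58nX W * W.c₄ ^ 2 - W.a₆ * W.c₄ ^ 3
      = - W.c₆ * W.Δ := by
  simp only [s58nX, s58nY, WeierstrassCurve.Δ, WeierstrassCurve.c₄, WeierstrassCurve.c₆,
    WeierstrassCurve.b₂, WeierstrassCurve.b₄, WeierstrassCurve.b₆, WeierstrassCurve.b₈]
  ring

end Identities

section ValLemmas

variable {K : Type*} [Field K] (A : ValuationSubring K)

theorem s58_mul_mem_nonunits {a m : K} (ha : a ∈ A) (hm : m ∈ A.nonunits) :
    a * m ∈ A.nonunits := by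
  rw [A.mem_nonunits_iff] at hm ⊢
  rw [map_mul]
  have h1 : A.valuation a ≤ 1 := (A.valuation_le_one_iff a).mpr ha
  calc A.valuation a * A.valuation m ≤ 1 * A.valuation m := mul_le_mul' h1 le_rfl
    _ = A.valuation m := one_mul _
    _ < 1 := hm

theorem s58_mem_of_mem_nonunits {m : K} (hm : m ∈ A.nonunits) : m ∈ A :=
  (A.valuation_le_one_iff m).mp (A.mem_nonunits_iff.mp hm).le

theorem s58_val_eq_one {a : K} (ha : a ∈ A) (hu : a ∉ A.nonunits) : A.valuation a = 1 := by
  have h1 : A.valuation a ≤ 1 := (A.valuation_le_one_iff a).mpr ha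
  have h2 : ¬ A.valuation a < 1 := fun h => hu (A.mem_nonunits_iff.mpr h)
  exact le_antisymm h1 (not_lt.mp h2)

theorem s58_mem_nonunits_of_unit_mul {a z : K} (ha : a ∈ A) (hu : a ∉ A.nonunits)
    (h : a * z ∈ A.nonunits) : z ∈ A.nonunits := by
  rw [A.mem_nonunits_iff] at h ⊢
  rwa [map_mul, s58_val_eq_one A ha hu, one_mul] at h

theorem s58_add_mem_nonunits {a b : K} (ha : a ∈ A.nonunits) (hb : b ∈ A.nonunits) :
    a + b ∈ A.nonunits := A.nonunits.add_mem ha hb

theorem s58_sub_mem_nonunits {a b : K} (ha : a ∈ A.nonunits) (hb : b ∈ A.nonunits) :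
    a - b ∈ A.nonunits := A.nonunits.sub_mem ha hb

theorem s58_neg_mem_nonunits {a : K} (ha : a ∈ A.nonunits) : -a ∈ A.nonunits :=
  A.nonunits.neg_mem ha

theorem s58_natCast_mem (n : ℕ) : (n : K) ∈ A := natCast_mem A n

theorem s58_ofNat_mem (n : ℕ) [n.AtLeastTwo] : (OfNat.ofNat n : K) ∈ A := by
  exact ofNat_mem A n

/-- A root `y` of `y (y + a) = R` with `a`, `R` non-units is a non-unit. -/
theorem s58_small_of_quadratic {y a R : K} (ha : a ∈ A.nonunits) (hR : R ∈ A.nonunits)
    (h : y * (y + a) = R) : y ∈ A.nonunits := by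
  rw [A.mem_nonunits_iff] at ha hR ⊢
  by_contra hy
  rw [not_lt] at hy
  have hlt : A.valuation a < A.valuation y := lt_of_lt_of_le ha hy
  have h1 : A.valuation (y + a) = A.valuation y := Valuation.map_add_eq_of_lt_left _ hlt
  have h2 : A.valuation R = A.valuation y * A.valuation y := by
    rw [← h, map_mul, h1]
  have h3 : (1 : A.ValueGroup) ≤ A.valuation y * A.valuation y :=
    one_le_mul_of_one_le_of_one_le hy hy
  rw [← h2] at h3
  exact absurd hR (not_lt.mpr h3)

/-- A root `Y` of `Y (Y + a) = R` with `a`, `R` integral is integral. -/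
theorem s58_integral_of_quadratic {y a R : K} (ha : a ∈ A) (hR : R ∈ A)
    (h : y * (y + a) = R) : y ∈ A := by
  rw [← A.valuation_le_one_iff] at ha hR ⊢
  by_contra hy
  rw [not_le] at hy
  have hlt : A.valuation a < A.valuation y := lt_of_le_of_lt ha hy
  have h1 : A.valuation (y + a) = A.valuation y := Valuation.map_add_eq_of_lt_left _ hlt
  have h2 : A.valuation R = A.valuation y * A.valuation y := by
    rw [← h, map_mul, h1]
  have h3 : (1 : A.ValueGroup) < A.valuation y * A.valuation y :=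
    one_lt_mul_of_lt_of_le' hy hy.le
  rw [← h2] at h3
  exact absurd hR (not_le.mpr h3)

end ValLemmas

end Fermat.Agent.H23.S58
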