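import Mathlib
import Fermat.Agent.H23.S58.NodeVal

/-!
# S58 / E0DIV: translation of a multiplicative Weierstrass model to a node model (helper23)

For a Weierstrass curve `W` with coefficients in a valuation ring `A` of an algebraically closed
field `K` (`2 ≠ 0` in `K`), `Δ` a nonzero non-unit and `c₄` a unit, there are `x0, y0 ∈ A` such
that the translate of `W` by `(x0, y0)` is a node model: `a₃' = a₆' = 0`, `a₄'` a nonzero
non-unit, `b₂'` a unit (`S58NodeData`).  Any residue characteristic.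
-/

set_option autoImplicit false

open WeierstrassCurve Polynomial

namespace Fermat.Agent.H23.S58

section Translate

variable {K : Type*} [Field K]

/-- The translated model `(x, y) ↦ (x + x0, y + y0)` of `W` is a node model with respect to the
valuation ring `A`: `a₃' = a₆' = 0`, `a₄'` a nonzero non-unit, `b₂'` a unit. -/
structure S58NodeData (A : ValuationSubring K) (W : WeierstrassCurve K) (x0 y0 : K) : Prop where
  x0_mem : x0 ∈ A
  y0_mem : y0 ∈ A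
  a1_mem : W.a₁ ∈ A
  a2_mem : W.a₂ ∈ A
  a3 : W.a₃ + x0 * W.a₁ + 2 * y0 = 0
  a6 : W.a₆ + x0 * W.a₄ + x0 ^ 2 * W.a₂ + x0 ^ 3 - y0 * W.a₃ - y0 ^ 2 - x0 * y0 * W.a₁ = 0
  a4_small : W.a₄ + 2 * x0 * W.a₂ - y0 * W.a₁ + 3 * x0 ^ 2 ∈ A.nonunits
  a4_ne : W.a₄ + 2 * x0 * W.a₂ - y0 * W.a₁ + 3 * x0 ^ 2 ≠ 0
  b2_mem : W.b₂ + 12 * x0 ∈ A
  b2_unit : W.b₂ + 12 * x0 ∉ A.nonunits

theorem s58_nX_map {R S : Type*} [CommRing R] [CommRing S] (f : R →+* S) (W : WeierstrassCurve R) :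
    s58nX (W.map f) = f (s58nX W) := by
  simp only [s58nX, map_b₂, map_b₄, map_b₆, map_sub, map_mul, map_ofNat]

theorem s58_nY_map {R S : Type*} [CommRing R] [CommRing S] (f : R →+* S) (W : WeierstrassCurve R) :
    s58nY (W.map f) = f (s58nY W) := by
  simp only [s58nY, map_b₂, map_a₁, map_a₂, map_a₃, map_a₄, map_a₆, map_sub, map_mul, map_add,
    map_pow, map_ofNat]

theorem s58_node_translate [IsAlgClosed K] (h2 : (2 : K) ≠ 0) (A : ValuationSubring K)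
    (WA : WeierstrassCurve A)
    (hΔ : (WA.map A.subtype).Δ ∈ A.nonunits) (hΔ0 : (WA.map A.subtype).Δ ≠ 0)
    (hc4 : (WA.map A.subtype).c₄ ∉ A.nonunits) :
    ∃ x0 y0 : K, S58NodeData A (WA.map A.subtype) x0 y0 := by
  classical
  set W : WeierstrassCurve K := WA.map A.subtype with hW
  have h4 : (4 : K) ≠ 0 := by
    have : (4 : K) = 2 * 2 := by norm_num
    rw [this]; exact mul_ne_zero h2 h2
  -- membership of the coefficients
  have ha1 : W.a₁ ∈ A := by rw [hW, map_a₁]; exact (WA.a₁).2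
  have ha2 : W.a₂ ∈ A := by rw [hW, map_a₂]; exact (WA.a₂).2
  have ha3 : W.a₃ ∈ A := by rw [hW, map_a₃]; exact (WA.a₃).2
  have ha4 : W.a₄ ∈ A := by rw [hW, map_a₄]; exact (WA.a₄).2
  have ha6 : W.a₆ ∈ A := by rw [hW, map_a₆]; exact (WA.a₆).2
  have hb2 : W.b₂ ∈ A := by rw [hW, map_b₂]; exact (WA.b₂).2
  have hc4m : W.c₄ ∈ A := by rw [hW, map_c₄]; exact (WA.c₄).2
  have hc6m : W.c₆ ∈ A := by rw [hW, map_c₆]; exact (WA.c₆).2
  have hnX : s58nX W ∈ A := by rw [hW, s58_nX_map]; exact (s58nX WA).2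
  have hnY : s58nY W ∈ A := by rw [hW, s58_nY_map]; exact (s58nY WA).2
  -- `c₄` is a unit
  have hvc : A.valuation W.c₄ = 1 := s58_val_eq_one A hc4m hc4
  have hc0 : W.c₄ ≠ 0 := by
    intro h0; rw [h0, map_zero] at hvc; exact zero_ne_one hvc
  set u : K := W.c₄⁻¹ with hu
  have hvu : A.valuation u = 1 := by rw [hu, map_inv₀, hvc, inv_one]
  have huA : u ∈ A := (A.valuation_le_one_iff u).mp hvu.le
  have huc : u * W.c₄ = 1 := inv_mul_cancel₀ hc0
  -- the singular point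
  set xs : K := s58nX W * u with hxs
  set ys : K := s58nY W * u with hys
  have hxsA : xs ∈ A := mul_mem hnX huA
  have hysA : ys ∈ A := mul_mem hnY huA
  have e3 : W.a₃ + xs * W.a₁ + 2 * ys = 0 := by
    have := s58_sing_polyY W
    have h : W.a₃ + xs * W.a₁ + 2 * ys
        = u * (2 * s58nY W + W.a₁ * s58nX W + W.a₃ * W.c₄) + W.a₃ * (1 - u * W.c₄) := by
      rw [hxs, hys]; ring
    rw [h, this, huc]; ring
  set a4' : K := W.a₄ + 2 * xs * W.a₂ - ys * W.a₁ + 3 * xs ^ 2 with ha4'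
  set a6' : K := W.a₆ + xs * W.a₄ + xs ^ 2 * W.a₂ + xs ^ 3 - ys * W.a₃ - ys ^ 2 - xs * ys * W.a₁
    with ha6'
  have e4 : a4' = -(36 * u ^ 2) * W.Δ := by
    have := s58_sing_polyX W
    have h : a4' = -(u ^ 2) * (W.a₁ * s58nY W * W.c₄ - 3 * s58nX W ^ 2
        - 2 * W.a₂ * s58nX W * W.c₄ - W.a₄ * W.c₄ ^ 2)
        + (W.a₄ * (1 - (u * W.c₄) ^ 2) + 2 * s58nX W * u * W.a₂ * (1 - u * W.c₄)
            - s58nY W * u * W.a₁ * (1 - u * W.c₄)) := by
      rw [ha4', hxs, hys]; ring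
    rw [h, this, huc]; ring
  have e6 : a6' = (u ^ 3 * W.c₆) * W.Δ := by
    have := s58_sing_eqn W
    have h : a6' = -(u ^ 3) * (s58nY W ^ 2 * W.c₄ + W.a₁ * s58nX W * s58nY W * W.c₄
        + W.a₃ * s58nY W * W.c₄ ^ 2 - s58nX W ^ 3 - W.a₂ * s58nX W ^ 2 * W.c₄
        - W.a₄ * s58nX W * W.c₄ ^ 2 - W.a₆ * W.c₄ ^ 3)
        + (W.a₆ * (1 - (u * W.c₄) ^ 3) + s58nX W * u * W.a₄ * (1 - (u * W.c₄) ^ 2)
            + (s58nX W * u) ^ 2 * W.a₂ * (1 - u * W.c₄)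
            - s58nY W * u * W.a₃ * (1 - (u * W.c₄) ^ 2)
            - (s58nY W * u) ^ 2 * (1 - u * W.c₄)
            - s58nX W * u * (s58nY W * u) * W.a₁ * (1 - u * W.c₄)) := by
      rw [ha6', hxs, hys]; ring
    rw [h, this, huc]; ring
  have h36 : (36 : K) ∈ A := (s58_ofNat_mem A 36 : (36 : K) ∈ A)
  have ha4s : a4' ∈ A.nonunits := by
    rw [e4]
    exact s58_mul_mem_nonunits A (neg_mem (mul_mem h36 (pow_mem huA 2))) hΔ
  have ha6s : a6' ∈ A.nonunits := by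
    rw [e6]
    exact s58_mul_mem_nonunits A (mul_mem (pow_mem huA 3) hc6m) hΔ
  -- the small root
  obtain ⟨x1, hx1, hroot⟩ := s58_exists_small_root A h4 (W.b₂ + 12 * xs) a4' a6' ha6s
  set y1 : K := -(W.a₁ * x1) / 2 with hy1
  have ey : 2 * y1 + W.a₁ * x1 = 0 := by
    rw [hy1]; field_simp; ring
  set a2' : K := W.a₂ + 3 * xs with ha2'
  have ha2'A : a2' ∈ A := add_mem ha2 (mul_mem ((s58_ofNat_mem A 3 : (3 : K) ∈ A)) hxsA)
  have hx1A : x1 ∈ A := s58_mem_of_mem_nonunits A hx1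
  have ecurve : y1 * (y1 + W.a₁ * x1) = x1 ^ 3 + a2' * x1 ^ 2 + a4' * x1 + a6' := by
    have hb : W.b₂ = W.a₁ ^ 2 + 4 * W.a₂ := rfl
    have key : 4 * (y1 * (y1 + W.a₁ * x1) - (x1 ^ 3 + a2' * x1 ^ 2 + a4' * x1 + a6')) = 0 := by
      rw [hb] at hroot
      linear_combination (2 * y1 + W.a₁ * x1) * ey - hroot
    have := (mul_eq_zero.mp key).resolve_left h4
    exact sub_eq_zero.mp this
  have hR : x1 ^ 3 + a2' * x1 ^ 2 + a4' * x1 + a6' ∈ A.nonunits := by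
    refine add_mem (add_mem (add_mem ?_ ?_) ?_) ha6s
    · have : x1 ^ 3 = x1 ^ 2 * x1 := by ring
      rw [this]; exact s58_mul_mem_nonunits A (pow_mem hx1A 2) hx1
    · have : a2' * x1 ^ 2 = (a2' * x1) * x1 := by ring
      rw [this]; exact s58_mul_mem_nonunits A (mul_mem ha2'A hx1A) hx1
    · rw [mul_comm]; exact s58_mul_mem_nonunits A hx1A ha4s
  have hy1s : y1 ∈ A.nonunits :=
    s58_small_of_quadratic A (s58_mul_mem_nonunits A ha1 hx1) hR ecurve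
  have hy1A : y1 ∈ A := s58_mem_of_mem_nonunits A hy1s
  -- the final translation
  refine ⟨xs + x1, ys + y1, ?_⟩
  have hE4 : W.a₄ + 2 * (xs + x1) * W.a₂ - (ys + y1) * W.a₁ + 3 * (xs + x1) ^ 2
      = a4' + (2 * a2' + 3 * x1) * x1 - W.a₁ * y1 := by
    rw [ha4', ha2']; ring
  have hE4s : W.a₄ + 2 * (xs + x1) * W.a₂ - (ys + y1) * W.a₁ + 3 * (xs + x1) ^ 2 ∈ A.nonunits := by
    rw [hE4]
    refine sub_mem (add_mem ha4s ?_) (s58_mul_mem_nonunits A ha1 hy1s)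
    exact s58_mul_mem_nonunits A (add_mem (mul_mem ((s58_ofNat_mem A 2 : (2 : K) ∈ A)) ha2'A)
      (mul_mem ((s58_ofNat_mem A 3 : (3 : K) ∈ A)) hx1A)) hx1
  have hE3 : W.a₃ + (xs + x1) * W.a₁ + 2 * (ys + y1) = 0 := by
    linear_combination e3 + ey
  have hE6 : W.a₆ + (xs + x1) * W.a₄ + (xs + x1) ^ 2 * W.a₂ + (xs + x1) ^ 3 - (ys + y1) * W.a₃
      - (ys + y1) ^ 2 - (xs + x1) * (ys + y1) * W.a₁ = 0 := by
    have hb : W.b₂ = W.a₁ ^ 2 + 4 * W.a₂ := rfl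
    have key : 4 * (W.a₆ + (xs + x1) * W.a₄ + (xs + x1) ^ 2 * W.a₂ + (xs + x1) ^ 3
        - (ys + y1) * W.a₃ - (ys + y1) ^ 2 - (xs + x1) * (ys + y1) * W.a₁) = 0 := by
      rw [hb, ha4', ha6'] at hroot
      linear_combination hroot + (2 * W.a₁ * x1 - 2 * (2 * y1 + W.a₁ * x1)) * e3
        - (2 * y1 + W.a₁ * x1) * ey
    exact (mul_eq_zero.mp key).resolve_left h4
  have hB2m : W.b₂ + 12 * (xs + x1) ∈ A :=
    add_mem hb2 (mul_mem ((s58_ofNat_mem A 12 : (12 : K) ∈ A)) (add_mem hxsA hx1A))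
  -- `c₄ = b₂'² - 48 a₄'`
  have hc4eq : W.c₄ = (W.b₂ + 12 * (xs + x1)) ^ 2
      - 48 * (W.a₄ + 2 * (xs + x1) * W.a₂ - (ys + y1) * W.a₁ + 3 * (xs + x1) ^ 2) := by
    have hb : W.b₂ = W.a₁ ^ 2 + 4 * W.a₂ := rfl
    have hc : W.c₄ = W.b₂ ^ 2 - 24 * W.b₄ := rfl
    have hb4 : W.b₄ = 2 * W.a₄ + W.a₁ * W.a₃ := rfl
    rw [hc, hb4, hb]
    linear_combination (-24 * W.a₁) * hE3
  have hB2u : W.b₂ + 12 * (xs + x1) ∉ A.nonunits := by
    intro hcon
    apply hc4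
    rw [hc4eq]
    refine sub_mem ?_ (s58_mul_mem_nonunits A ((s58_ofNat_mem A 48 : (48 : K) ∈ A)) hE4s)
    rw [pow_two]
    exact s58_mul_mem_nonunits A hB2m hcon
  have hE4ne : W.a₄ + 2 * (xs + x1) * W.a₂ - (ys + y1) * W.a₁ + 3 * (xs + x1) ^ 2 ≠ 0 := by
    intro h0
    apply hΔ0
    set C : VariableChange K := ⟨1, xs + x1, 0, ys + y1⟩ with hC
    have hΔC : (C • W).Δ = W.Δ := by
      rw [variableChange_Δ]; simp [hC]
    have h3 : (C • W).a₃ = 0 := by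
      rw [variableChange_a₃]; simp only [hC, inv_one, Units.val_one, one_pow, one_mul]
      linear_combination hE3
    have h4' : (C • W).a₄ = 0 := by
      rw [variableChange_a₄]; simp only [hC, inv_one, Units.val_one, one_pow, one_mul]
      linear_combination h0
    have h6 : (C • W).a₆ = 0 := by
      rw [variableChange_a₆]; simp only [hC, inv_one, Units.val_one, one_pow, one_mul]
      linear_combination hE6
    rw [← hΔC]
    simp only [WeierstrassCurve.Δ, WeierstrassCurve.b₂, WeierstrassCurve.b₄, WeierstrassCurve.b₆,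
      WeierstrassCurve.b₈, h3, h4', h6]
    ring
  exact ⟨add_mem hxsA hx1A, add_mem hysA hy1A, ha1, ha2, hE3, hE6, hE4s, hE4ne, hB2m, hB2u⟩

end Translate

end Fermat.Agent.H23.S58
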