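import Mathlib
import Fermat.Agent.H23.S58.NodeTranslate

/-!
# S58 / E0DIV: unit `x`-coordinate on the node model gives nonsingular reduction (helper23)
-/

set_option autoImplicit false

open WeierstrassCurve Polynomial

namespace Fermat.Agent.H23.S58

section GoodRed

variable {K : Type*} [Field K]

/-- On the translated node model, a point with unit `x`-coordinate corresponds to an integral
point of `W` with nonsingular reduction. -/
theorem s58_goodRed_of_nodeData (A : ValuationSubring K) (W : WeierstrassCurve K)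
    {x0 y0 : K} (hN : S58NodeData A W x0 y0) {X Y : K}
    (hXY : Y ^ 2 + W.a₁ * X * Y = X ^ 3 + (W.a₂ + 3 * x0) * X ^ 2
      + (W.a₄ + 2 * x0 * W.a₂ - y0 * W.a₁ + 3 * x0 ^ 2) * X)
    (hX : X ∈ A) (hXu : X ∉ A.nonunits) :
    X + x0 ∈ A ∧ Y + y0 ∈ A ∧
      (W.a₁ * (Y + y0) - (3 * (X + x0) ^ 2 + 2 * W.a₂ * (X + x0) + W.a₄) ∉ A.nonunits ∨
        2 * (Y + y0) + W.a₁ * (X + x0) + W.a₃ ∉ A.nonunits) := by
  set E4 : K := W.a₄ + 2 * x0 * W.a₂ - y0 * W.a₁ + 3 * x0 ^ 2 with hE4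
  have ha2' : W.a₂ + 3 * x0 ∈ A := add_mem hN.a2_mem (mul_mem (s58_ofNat_mem A 3 : (3 : K) ∈ A) hN.x0_mem)
  have hE4A : E4 ∈ A := s58_mem_of_mem_nonunits A hN.a4_small
  have hR : X ^ 3 + (W.a₂ + 3 * x0) * X ^ 2 + E4 * X ∈ A :=
    add_mem (add_mem (pow_mem hX 3) (mul_mem ha2' (pow_mem hX 2))) (mul_mem hE4A hX)
  have hYA : Y ∈ A := by
    refine s58_integral_of_quadratic A (mul_mem hN.a1_mem hX) hR ?_
    rw [← hXY]; ring
  refine ⟨add_mem hX hN.x0_mem, add_mem hYA hN.y0_mem, ?_⟩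
  by_contra hcon
  rw [not_or, not_not, not_not] at hcon
  obtain ⟨hpX, hpY⟩ := hcon
  have epY : 2 * (Y + y0) + W.a₁ * (X + x0) + W.a₃ = 2 * Y + W.a₁ * X := by
    linear_combination hN.a3
  have epX : W.a₁ * (Y + y0) - (3 * (X + x0) ^ 2 + 2 * W.a₂ * (X + x0) + W.a₄)
      = W.a₁ * Y - 3 * X ^ 2 - 2 * (W.a₂ + 3 * x0) * X - E4 := by
    rw [hE4]; ring
  rw [epX] at hpX
  rw [epY] at hpY
  have hb : W.b₂ = W.a₁ ^ 2 + 4 * W.a₂ := rfl
  -- (E1)
  have h1 : X * (6 * X + (W.b₂ + 12 * x0)) ∈ A.nonunits := by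
    have : X * (6 * X + (W.b₂ + 12 * x0))
        = W.a₁ * (2 * Y + W.a₁ * X) - 2 * (W.a₁ * Y - 3 * X ^ 2 - 2 * (W.a₂ + 3 * x0) * X - E4)
          - 2 * E4 := by
      rw [hb]; ring
    rw [this]
    exact sub_mem (sub_mem (s58_mul_mem_nonunits A hN.a1_mem hpY)
      (s58_mul_mem_nonunits A (s58_ofNat_mem A 2 : (2 : K) ∈ A) hpX))
      (s58_mul_mem_nonunits A (s58_ofNat_mem A 2 : (2 : K) ∈ A) hN.a4_small)
  have h1' : 6 * X + (W.b₂ + 12 * x0) ∈ A.nonunits := s58_mem_nonunits_of_unit_mul A hX hXu h1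
  -- (E2)
  have h2 : X * (X * (4 * X + (W.b₂ + 12 * x0))) ∈ A.nonunits := by
    have : X * (X * (4 * X + (W.b₂ + 12 * x0)))
        = (2 * Y + W.a₁ * X) * (2 * Y + W.a₁ * X) - (4 * X) * E4 := by
      rw [hb]; linear_combination (-4 : K) * hXY
    rw [this]
    exact sub_mem (s58_mul_mem_nonunits A (s58_mem_of_mem_nonunits A hpY) hpY)
      (s58_mul_mem_nonunits A (mul_mem (s58_ofNat_mem A 4 : (4 : K) ∈ A) hX) hN.a4_small)
  have h2' : 4 * X + (W.b₂ + 12 * x0) ∈ A.nonunits :=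
    s58_mem_nonunits_of_unit_mul A hX hXu (s58_mem_nonunits_of_unit_mul A hX hXu h2)
  have h3 : X * 2 ∈ A.nonunits := by
    have : X * 2 = (6 * X + (W.b₂ + 12 * x0)) - (4 * X + (W.b₂ + 12 * x0)) := by ring
    rw [this]; exact sub_mem h1' h2'
  have h3' : (2 : K) ∈ A.nonunits := s58_mem_nonunits_of_unit_mul A hX hXu h3
  apply hN.b2_unit
  have : W.b₂ + 12 * x0 = (4 * X + (W.b₂ + 12 * x0)) - (2 * X) * 2 := by ring
  rw [this]
  exact sub_mem h2' (s58_mul_mem_nonunits A (mul_mem (s58_ofNat_mem A 2 : (2 : K) ∈ A) hX) h3')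

end GoodRed

end Fermat.Agent.H23.S58
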