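import Fermat.Agent.H51.S58.Interfaces
import Fermat.Agent.H46.VariableChangePoint
import Fermat.Agent.H26.KernelReduction
import Fermat.Agent.H23.S58.NodeGoodRed

/-!
# S58 / E0DIV part [A]: reduction of a multiplicative model to the node model (helper23)

`nodeReduce : NodeReduceStatement`: for an integral Weierstrass model `W` with multiplicative
reduction at `q` (`q ∣ Δ`, `q ∤ c₄`) and a place `A` of `ℚ̄` over `q` there is a node model
`W' : y² + a₁ x y = x³ + a₂ x² + a₄ x` over `ℚ̄` (`a₁, a₂ ∈ A`, `a₄` a nonzero non-unit, `b₂` a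
unit) and a group isomorphism `e : E(ℚ̄) ≃+ W'(ℚ̄)` (a translation by an `A`-integral `2`-torsion
point reducing to the node) such that a torsion point `P` of order prime to `q` whose image does
not reduce to the node `(0, 0)` of `W'` has nonsingular reduction on `W`.
-/

set_option autoImplicit false

open WeierstrassCurve WeierstrassCurve.Affine

namespace Fermat.Agent.H23.S58

open Fermat.Agent.H51.S58

/-- **Reduction to the node model**, torsion-aware form. -/
def NodeReduceStatement : Prop :=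
  ∀ (W : WeierstrassCurve ℤ), W.Δ ≠ 0 → ∀ (q : ℕ), q.Prime → (q : ℤ) ∣ W.Δ → ¬ (q : ℤ) ∣ W.c₄ →
    ∀ A : ValuationSubring (AlgebraicClosure ℚ), A.LiesOverPrime q →
      ∃ (W' : WeierstrassCurve (AlgebraicClosure ℚ)) (e : EPt W ≃+ W'.toAffine.Point),
        W'.a₃ = 0 ∧ W'.a₆ = 0 ∧ W'.a₁ ∈ A ∧ W'.a₂ ∈ A ∧ W'.a₄ ∈ A.nonunits ∧ W'.a₄ ≠ 0 ∧
        W'.b₂ ∉ A.nonunits ∧
        ∀ (P : EPt W) (n : ℕ), 0 < n → ¬ q ∣ n → n • P = 0 →
          (e P = 0 ∨ ∃ (x y : AlgebraicClosure ℚ) (h : W'.toAffine.Nonsingular x y),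
            e P = Point.some x y h ∧ x ∉ A.nonunits) → GoodRedAt W A P

/-- An integer prime to `q` is a unit at every place over `q`. -/
theorem s58_intCast_not_mem_nonunits {L : Type*} [Field L] (A : ValuationSubring L) {q : ℕ}
    (hq : q.Prime) (hA : A.LiesOverPrime q) (m : ℤ) (hm : ¬ (q : ℤ) ∣ m) :
    (m : L) ∉ A.nonunits := by
  intro hcon
  have hcop : IsCoprime (q : ℤ) m :=
    (Prime.coprime_iff_not_dvd (Nat.prime_iff_prime_int.mp hq)).mpr hm
  obtain ⟨a, b, hab⟩ := hcop
  have h1 : ((a : L) * (q : L) + (b : L) * (m : L)) = 1 := by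
    have := congrArg (fun z : ℤ => (z : L)) hab
    simpa using this
  have hqn : (q : L) ∈ A.nonunits := hA
  have h2 : (1 : L) ∈ A.nonunits := by
    rw [← h1]
    exact add_mem (s58_mul_mem_nonunits A (intCast_mem A a) hqn)
      (s58_mul_mem_nonunits A (intCast_mem A b) hcon)
  rw [A.mem_nonunits_iff, map_one] at h2
  exact lt_irrefl _ h2

/-- The coefficients of the translated curve. -/
theorem s58_translate_coeffs {K : Type*} [Field K] (W : WeierstrassCurve K) (x0 y0 : K) :
    ((⟨1, x0, 0, y0⟩ : VariableChange K) • W).a₁ = W.a₁ ∧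
    ((⟨1, x0, 0, y0⟩ : VariableChange K) • W).a₂ = W.a₂ + 3 * x0 ∧
    ((⟨1, x0, 0, y0⟩ : VariableChange K) • W).a₃ = W.a₃ + x0 * W.a₁ + 2 * y0 ∧
    ((⟨1, x0, 0, y0⟩ : VariableChange K) • W).a₄
      = W.a₄ + 2 * x0 * W.a₂ - y0 * W.a₁ + 3 * x0 ^ 2 ∧
    ((⟨1, x0, 0, y0⟩ : VariableChange K) • W).a₆
      = W.a₆ + x0 * W.a₄ + x0 ^ 2 * W.a₂ + x0 ^ 3 - y0 * W.a₃ - y0 ^ 2 - x0 * y0 * W.a₁ ∧
    ((⟨1, x0, 0, y0⟩ : VariableChange K) • W).b₂ = W.b₂ + 12 * x0 := by
  refine ⟨?_, ?_, ?_, ?_, ?_, ?_⟩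
  · rw [variableChange_a₁]; simp
  · rw [variableChange_a₂]; simp
  · rw [variableChange_a₃]; simp
  · rw [variableChange_a₄]; simp
  · rw [variableChange_a₆]; simp
  · rw [variableChange_b₂]; simp

theorem nodeReduce : NodeReduceStatement := by
  intro W hΔ q hq hqΔ hc4 A hA
  set WK : WeierstrassCurve (AlgebraicClosure ℚ) :=
    (W.map (Int.castRingHom ℚ)).baseChange (AlgebraicClosure ℚ) with hWK
  set WA : WeierstrassCurve A := W.map (Int.castRingHom A) with hWA
  have hmap : WK = WA.map A.subtype := by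
    rw [hWK, hWA, WeierstrassCurve.baseChange, map_map, map_map]
    congr 1
  have h2 : (2 : AlgebraicClosure ℚ) ≠ 0 := two_ne_zero
  have hΔv : WK.Δ = ((W.Δ : ℤ) : AlgebraicClosure ℚ) := by
    rw [hWK, WeierstrassCurve.baseChange, map_Δ, map_Δ]; simp
  have hc4v : WK.c₄ = ((W.c₄ : ℤ) : AlgebraicClosure ℚ) := by
    rw [hWK, WeierstrassCurve.baseChange, map_c₄, map_c₄]; simp
  have hΔK : WK.Δ ∈ A.nonunits := by
    rw [hΔv]
    obtain ⟨m, hm⟩ := hqΔ
    rw [hm]
    push_cast
    rw [mul_comm]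
    exact s58_mul_mem_nonunits A (intCast_mem A m) hA
  have hΔ0 : WK.Δ ≠ 0 := by
    rw [hΔv]; exact_mod_cast hΔ
  have hc4K : WK.c₄ ∉ A.nonunits := by
    rw [hc4v]; exact s58_intCast_not_mem_nonunits A hq hA _ hc4
  rw [hmap] at hΔK hΔ0 hc4K
  obtain ⟨x0, y0, hN⟩ := s58_node_translate h2 A WA hΔK hΔ0 hc4K
  rw [← hmap] at hN
  obtain ⟨c1, c2, c3, c4, c6, cb2⟩ := s58_translate_coeffs WK x0 y0
  set C : VariableChange (AlgebraicClosure ℚ) := ⟨1, x0, 0, y0⟩ with hC
  have h3 : (C • WK).a₃ = 0 := by rw [c3]; exact hN.a3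
  have h6 : (C • WK).a₆ = 0 := by rw [c6]; exact hN.a6
  refine ⟨C • WK, (Fermat.Agent.H46.vcPointEquiv C WK).symm, h3, h6, ?_, ?_, ?_, ?_, ?_, ?_⟩
  · rw [c1]; exact hN.a1_mem
  · rw [c2]
    exact add_mem hN.a2_mem (mul_mem (s58_ofNat_mem A 3 : (3 : AlgebraicClosure ℚ) ∈ A) hN.x0_mem)
  · rw [c4]; exact hN.a4_small
  · rw [c4]; exact hN.a4_ne
  · rw [cb2]; exact hN.b2_unit
  · intro P n hn hqn hnP hcl
    rcases hcl with h0 | ⟨X, Y, h, hPe, hXu⟩
    · have hP0 : P = 0 := by
        have := congrArg (Fermat.Agent.H46.vcPointEquiv C WK) h0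
        simpa using this
      rw [hP0]
      exact trivial
    · -- the point of `W` corresponding to `(X, Y)`
      have hP : P = Fermat.Agent.H46.vcPointEquiv C WK (Point.some X Y h) := by
        rw [← hPe]; simp
      -- `n` is a unit of `A`
      have hnv : A.valuation ((n : ℕ) : AlgebraicClosure ℚ) = 1 := by
        have hnq : ¬ (q : ℤ) ∣ (n : ℤ) := by
          intro hd; exact hqn (by exact_mod_cast hd)
        have h1 := s58_intCast_not_mem_nonunits A hq hA (n : ℤ) hnq
        have h2 : ((n : ℤ) : AlgebraicClosure ℚ) ∈ A := intCast_mem A _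
        have := s58_val_eq_one A h2 h1
        simpa using this
      -- integrality of `X`
      have hint : Fermat.Agent.H26.IsIntegralAt A.valuation (C • WK).toAffine :=
        { a₁ := by
            show A.valuation (C • WK).a₁ ≤ 1
            rw [c1]; exact (A.valuation_le_one_iff _).mpr hN.a1_mem
          a₂ := by
            show A.valuation (C • WK).a₂ ≤ 1
            rw [c2]
            exact (A.valuation_le_one_iff _).mpr (add_mem hN.a2_mem
              (mul_mem (s58_ofNat_mem A 3 : (3 : AlgebraicClosure ℚ) ∈ A) hN.x0_mem))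
          a₃ := by
            show A.valuation (C • WK).a₃ ≤ 1
            rw [h3, map_zero]; exact zero_le_one
          a₄ := by
            show A.valuation (C • WK).a₄ ≤ 1
            rw [c4]; exact (A.mem_nonunits_iff.mp hN.a4_small).le
          a₆ := by
            show A.valuation (C • WK).a₆ ≤ 1
            rw [h6, map_zero]; exact zero_le_one }
      have hnP' : n • (Point.some X Y h : (C • WK).toAffine.Point) = 0 := by
        rw [← hPe, ← map_nsmul, hnP, map_zero]
      have hXA : X ∈ A := by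
        by_contra hXA
        have hker : Fermat.Agent.H26.InKer A.valuation (Point.some X Y h : (C • WK).toAffine.Point) := by
          show 1 < A.valuation X
          rw [← not_le, A.valuation_le_one_iff]; exact hXA
        have := Fermat.Agent.H26.eq_zero_of_nsmul_eq_zero hint hker hnv hnP'
        exact Point.some_ne_zero _ this
      -- the equation of the node model
      have heq : Y ^ 2 + WK.a₁ * X * Y = X ^ 3 + (WK.a₂ + 3 * x0) * X ^ 2
          + (WK.a₄ + 2 * x0 * WK.a₂ - y0 * WK.a₁ + 3 * x0 ^ 2) * X := by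
        have := (equation_iff _ _).mp h.1
        rw [h3, h6, c1, c2, c4] at this
        linear_combination this
      obtain ⟨g1, g2, g3⟩ := s58_goodRed_of_nodeData A WK hN heq hXA hXu
      rw [hP]
      rw [Fermat.Agent.H46.vcPointEquiv_some]
      show _ ∧ _ ∧ _
      simp only [Fermat.Agent.H46.vcX, Fermat.Agent.H46.vcY, hC, Units.val_one, one_pow, one_mul,
        mul_zero, zero_mul, add_zero]
      exact ⟨g1, g2, g3⟩

end Fermat.Agent.H23.S58
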